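import Fermat.Statements.S18
import Fermat.Agent.Grass.ModularCtx
import Fermat.Agent.Grass.Torsion
import Fermat.Agent.Galois.Places

set_option autoImplicit false
open ModularCurve

namespace Fermat.Agent.S18

open AlgebraicCurve

theorem result (N : ℕ) [NeZero N] {ℓ : ℕ}
    [Fact ℓ.Prime] (hℓN : ¬ ℓ ∣ N) (A : ValuationSubring (AlgebraicClosure ℚ)) (hA : A.LiesOverPrime ℓ)
    (h : ModularCurve.ReductionInputsModL A N) (m : ℕ) (hm : ¬ ℓ ∣ m) (z : ModularCurve.JZero N)
    (hmz : m • z = 0) (hz : ModularCurve.reductionModL A N z = 0) :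
    z = 0 := by
  obtain ⟨g, C, hr, -⟩ := FLTA.Grass.exists_modularCtx N hℓN A hA h
  obtain ⟨D, rfl⟩ := Pic0.mk_surjective z
  refine C.eq_zero_of_rDiv_principal m ?_ D hmz ?_
  · by_contra hu
    exact hm ((FLTA.Galois.natCast_mem_nonunits_iff (Fact.out) hA m).1
      ((ValuationSubring.coe_mem_nonunits_iff (a := (m : A))).2 hu))
  · rw [reductionModL_mk h] at hz
    have h2 := (QuotientAddGroup.eq_zero_iff _).1 hz
    rw [AddSubgroup.mem_addSubgroupOf, coe_reductionDegZeroAlong, ← hr] at h2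
    exact h2

end Fermat.Agent.S18
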