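import Fermat.Statements.S02
-- import your own Fermat.Agent.* helpers here

set_option autoImplicit false
open FreyPackage

namespace Fermat.Agent.S02

private theorem of_coprime_even {a b c : ℤ} (ha : a ≠ 0) (hb : b ≠ 0) (hc : c ≠ 0) {p : ℕ}
    (pp : p.Prime) (hp5 : 5 ≤ p) (H : a ^ p + b ^ p = c ^ p) (hg : Int.gcd a b = 1)
    (hb2 : 2 ∣ b) : Nonempty FreyPackage := by
  have hpodd : Odd p := pp.odd_of_ne_two (by omega)
  have hgab : gcd a b = 1 := by rw [← Int.coe_gcd, hg]; rfl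
  have ha2 : ¬ (2 : ℤ) ∣ a := fun h => by
    have := Int.dvd_coe_gcd h hb2
    rw [hg] at this
    norm_num at this
  have hbz : (b : ZMod 2) = 0 := (ZMod.intCast_zmod_eq_zero_iff_dvd b 2).2 (by simpa using hb2)
  have h4 : a % 4 = 3 ∨ a % 4 = 1 := by omega
  rcases h4 with h | h
  · refine ⟨⟨a, b, c, ha, hb, hc, p, pp, hp5, H, hgab, ?_, hbz⟩⟩
    have : ((4 : ℕ) : ℤ) ∣ a - 3 := by push_cast; omega
    have := (ZMod.intCast_zmod_eq_zero_iff_dvd (a - 3) 4).2 this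
    push_cast at this
    exact sub_eq_zero.1 this
  · refine ⟨⟨-a, -b, -c, neg_ne_zero.2 ha, neg_ne_zero.2 hb, neg_ne_zero.2 hc, p, pp, hp5, ?_,
      ?_, ?_, ?_⟩⟩
    · rw [hpodd.neg_pow, hpodd.neg_pow, hpodd.neg_pow, ← H]; ring
    · rw [← Int.coe_gcd, Int.neg_gcd, Int.gcd_neg, hg]; rfl
    · have : ((4 : ℕ) : ℤ) ∣ -a - 3 := by push_cast; omega
      have := (ZMod.intCast_zmod_eq_zero_iff_dvd (-a - 3) 4).2 this
      push_cast at this
      push_cast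
      exact sub_eq_zero.1 this
    · push_cast; rw [hbz, neg_zero]

private theorem of_coprime {a b c : ℤ} (ha : a ≠ 0) (hb : b ≠ 0) (hc : c ≠ 0) {p : ℕ}
    (pp : p.Prime) (hp5 : 5 ≤ p) (H : a ^ p + b ^ p = c ^ p) (hg : Int.gcd a b = 1) :
    Nonempty FreyPackage := by
  have hpodd : Odd p := pp.odd_of_ne_two (by omega)
  by_cases hb2 : (2 : ℤ) ∣ b
  · exact of_coprime_even ha hb hc pp hp5 H hg hb2
  by_cases ha2 : (2 : ℤ) ∣ a
  · exact of_coprime_even hb ha hc pp hp5 (by rw [add_comm, H]) (by rwa [Int.gcd_comm]) ha2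
  have hc2 : (2 : ℤ) ∣ c := by
    have hodd : ∀ x : ℤ, ¬ (2 : ℤ) ∣ x → Odd (x ^ p) := fun x hx =>
      (Int.not_even_iff_odd.1 fun h => hx (even_iff_two_dvd.1 h)).pow
    have : Even (c ^ p) := by rw [← H]; exact (hodd a ha2).add_odd (hodd b hb2)
    exact even_iff_two_dvd.1 ((Int.even_pow' (by omega)).1 this)
  refine of_coprime_even ha (neg_ne_zero.2 hc) (neg_ne_zero.2 hb) pp hp5 ?_ ?_ (dvd_neg.2 hc2)
  · rw [hpodd.neg_pow, hpodd.neg_pow, ← H]; ring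
  · rw [Int.gcd_neg]
    have h := FreyPackage.gcdab_eq_gcdac (p := p) (by omega) H
    rw [← Int.coe_gcd, ← Int.coe_gcd, hg] at h
    exact_mod_cast h.symm

theorem result (a b c : ℤ) (ha : a ≠ 0) (hb : b ≠ 0) (hc : c ≠ 0) (p : ℕ) (pp : p.Prime) (hp5 : 5 ≤ p) (H : a ^ p + b ^ p = c ^ p) : Nonempty FreyPackage := by
  have hpos : 0 < Int.gcd a b := Int.gcd_pos_of_ne_zero_left b ha
  obtain ⟨a', ha'⟩ := Int.gcd_dvd_left a b
  obtain ⟨b', hb'⟩ := Int.gcd_dvd_right a b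
  have hg : Int.gcd a' b' = 1 := by
    have h := Int.gcd_mul_left (Int.gcd a b : ℤ) a' b'
    rw [← ha', ← hb', Int.natAbs_natCast] at h
    exact Nat.eq_of_mul_eq_mul_left hpos (by rw [← h, mul_one])
  generalize hd : ((Int.gcd a b : ℕ) : ℤ) = d at ha' hb'
  subst ha' hb'
  have hdc : d ∣ c := by
    rw [← Int.pow_dvd_pow_iff pp.ne_zero, ← H, mul_pow, mul_pow]
    exact ⟨a' ^ p + b' ^ p, by ring⟩
  obtain ⟨c', rfl⟩ := hdc
  refine of_coprime (right_ne_zero_of_mul ha) (right_ne_zero_of_mul hb) (right_ne_zero_of_mul hc)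
    pp hp5 ?_ hg
  exact mul_left_cancel₀ (pow_ne_zero p (left_ne_zero_of_mul ha))
    (by rw [mul_add, ← mul_pow, ← mul_pow, ← mul_pow, H])

end Fermat.Agent.S02
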