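import Fermat.Statements.S10
import Fermat.Agent.EllPoints.Five
import Fermat.Agent.EllPoints.Seven
import Fermat.Agent.EllPoints.ThirteenTate
import Fermat.Agent.EllPoints.TwoTorsion
import Fermat.Agent.EllIsogeny.Quotient
import Fermat.Agent.Wiring.FreyModel
-- import your own Fermat.Agent.* helpers here

set_option autoImplicit false
open WeierstrassCurve WeierstrassCurve.Affine WeierstrassCurve.Affine.Point
open CuspForm ModularFormClass UpperHalfPlane
open FreyPackage

namespace Fermat.Agent.S10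

/-- The Frey curve has two distinct rational points of order two. -/
theorem exists_two_torsion (P : FreyPackage) :
    ∃ T₁ T₂ : P.freyCurve.toAffine.Point,
      addOrderOf T₁ = 2 ∧ addOrderOf T₂ = 2 ∧ T₁ ≠ T₂ := by
  haveI : P.freyCurve.IsElliptic := by
    refine ⟨?_⟩
    rw [← FLTA.Wiring.freyCurveInt_map_rat, WeierstrassCurve.map_Δ, isUnit_iff_ne_zero]
    simpa using FLTA.Wiring.freyCurveInt_Δ_ne_zero P
  haveI : Fact (Nat.Prime 2) := ⟨Nat.prime_two⟩
  obtain ⟨A, hA⟩ : ∃ A : ℚ, (P.a : ℚ) ^ P.p = A := ⟨_, rfl⟩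
  have hA0 : A ≠ 0 := hA ▸ pow_ne_zero _ (by exact_mod_cast P.ha0)
  have key : ∀ (x y : ℚ) (h : P.freyCurve.toAffine.Nonsingular x y),
      y = P.freyCurve.toAffine.negY x y →
      addOrderOf (WeierstrassCurve.Affine.Point.some x y h) = 2 := fun x y h hy =>
    addOrderOf_eq_prime (by rw [two_nsmul]; exact WeierstrassCurve.Affine.Point.add_self_of_Y_eq hy)
      (WeierstrassCurve.Affine.Point.some_ne_zero _)
  have h0 : P.freyCurve.toAffine.Nonsingular 0 0 := by
    rw [← WeierstrassCurve.Affine.equation_iff_nonsingular, WeierstrassCurve.Affine.equation_iff]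
    simp [FreyPackage.freyCurve]
  have hA' : P.freyCurve.toAffine.Nonsingular (A / 4) (-A / 8) := by
    rw [← WeierstrassCurve.Affine.equation_iff_nonsingular, WeierstrassCurve.Affine.equation_iff]
    simp only [FreyPackage.freyCurve, hA]
    ring
  refine ⟨.some 0 0 h0, .some (A / 4) (-A / 8) hA', key _ _ _ ?_, key _ _ _ ?_, ?_⟩
  · simp [WeierstrassCurve.Affine.negY, FreyPackage.freyCurve]
  · simp only [WeierstrassCurve.Affine.negY, FreyPackage.freyCurve]
    ring
  · intro h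
    rw [WeierstrassCurve.Affine.Point.some.injEq] at h
    exact hA0 (by linarith [h.1])

theorem result (P : FreyPackage) (hp : P.p = 5 ∨ P.p = 7 ∨ P.p = 13) : ¬ HasGaloisStableCofixedLine (K := AlgebraicClosure ℚ) ℚ P.freyCurve P.p := by
  intro h
  haveI : P.freyCurve.IsElliptic := by
    refine ⟨?_⟩
    rw [← FLTA.Wiring.freyCurveInt_map_rat, WeierstrassCurve.map_Δ, isUnit_iff_ne_zero]
    simpa using FLTA.Wiring.freyCurveInt_Δ_ne_zero P
  obtain ⟨E', hE', ⟨Q, hQ⟩, htwo⟩ :=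
    FLTA.EllIsogeny.exists_ratPoint_of_cofixed P.freyCurve P.pp (by omega) h
  obtain ⟨T₁, T₂, h₁, h₂, hne⟩ := htwo (exists_two_torsion P)
  have hsq : IsSquare E'.Δ := FLTA.EllPoints.isSquare_discriminant_of_two_torsion h₁ h₂ hne
  have hΔ : E'.Δ ≠ 0 := hE'.isUnit.ne_zero
  have hQ0 : Q ≠ 0 := fun h0 => by
    rw [h0, addOrderOf_zero] at hQ
    exact P.pp.one_lt.ne' hQ.symm
  have hQp : P.p • Q = 0 := hQ ▸ addOrderOf_nsmul_eq_zero Q
  rcases hp with hp | hp | hp
  · exact FLTA.EllPoints.Five.not_isSquare_discriminant hΔ hQ0 (hp ▸ hQp) hsq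
  · have hT0 : T₁ ≠ 0 := fun h0 => by simp [h0] at h₁
    exact FLTA.EllPoints.Seven.no_two_seven hQ0 (hp ▸ hQp) hT0
      (h₁ ▸ addOrderOf_nsmul_eq_zero T₁)
  · exact FLTA.EllPoints.Thirteen.not_isSquare_discriminant hΔ (hQ.trans hp) hsq

end Fermat.Agent.S10
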