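import Fermat.Statements.S11
import Fermat.Agent.EllPoints.ElevenTate
import Fermat.Agent.EllIsogeny.Quotient
import Fermat.Agent.Wiring.FreyModel

set_option autoImplicit false
open WeierstrassCurve WeierstrassCurve.Affine WeierstrassCurve.Affine.Point
open CuspForm ModularFormClass UpperHalfPlane
open FreyPackage

namespace Fermat.Agent.S11

theorem result (P : FreyPackage) (hp : P.p = 11) : ¬ HasGaloisStableCofixedLine (K := AlgebraicClosure ℚ) ℚ P.freyCurve P.p := by
  intro h
  haveI : P.freyCurve.IsElliptic := by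
    refine ⟨?_⟩
    rw [← FLTA.Wiring.freyCurveInt_map_rat, WeierstrassCurve.map_Δ, isUnit_iff_ne_zero]
    simpa using FLTA.Wiring.freyCurveInt_Δ_ne_zero P
  obtain ⟨E', hE', ⟨Q, hQ⟩, -⟩ :=
    FLTA.EllIsogeny.exists_ratPoint_of_cofixed P.freyCurve P.pp (by omega) h
  exact FLTA.EllPoints.Eleven.no_point_order_eleven E' Q (hQ.trans hp)

end Fermat.Agent.S11
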