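import Fermat.Statements.S12
import Fermat.Agent.Mazur.Induction
import Fermat.Agent.Wiring.FreyModel
import Fermat.Agent.Herbrand.Assembly

set_option autoImplicit false
open WeierstrassCurve WeierstrassCurve.Affine WeierstrassCurve.Affine.Point
open CuspForm ModularFormClass UpperHalfPlane
open FreyPackage

namespace Fermat.Agent.S12

theorem result (P : FreyPackage) (hp : 17 ≤ P.p) : ¬ HasGaloisStableCofixedLine (K := AlgebraicClosure ℚ) ℚ P.freyCurve P.p := by
  intro hline
  have : Fact P.p.Prime := ⟨P.pp⟩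
  rw [← FLTA.Wiring.freyCurveInt_map_rat P] at hline
  refine FLTA.Mazur.false_of_cofixedLine (FLTA.Wiring.freyCurveInt_Δ_ne_zero P)
    (FLTA.Wiring.freyCurveInt_isSemistableModel P) ⟨P.pp, ?_⟩ hline
    (FLTA.Herbrand.extVanishingCts (by omega))
  simp
  omega

end Fermat.Agent.S12
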