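import Fermat.Statements.S13
import Fermat.Agent.EllReducible.Global
import Fermat.Agent.EllReducible.FreyNoSub

set_option autoImplicit false
open WeierstrassCurve WeierstrassCurve.Affine WeierstrassCurve.Affine.Point
open CuspForm ModularFormClass UpperHalfPlane
open FreyPackage

namespace Fermat.Agent.S13

theorem result (P : FreyPackage) (hred : ¬ GaloisRepIsIrreducible (K := AlgebraicClosure ℚ) ℚ P.freyCurve P.p) : HasGaloisStableCofixedLine (K := AlgebraicClosure ℚ) ℚ P.freyCurve P.p := by
  have hmap := FLTA.Wiring.freyCurveInt_map_rat P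
  rw [← hmap] at hred ⊢
  have hΔ : P.freyCurveInt.Δ ≠ 0 := FLTA.Wiring.freyCurveInt_Δ_ne_zero P
  have hE : (P.freyCurveInt.map (Int.castRingHom ℚ)).Δ ≠ 0 := by
    rw [WeierstrassCurve.map_Δ]; simpa using hΔ
  obtain ⟨N, hN⟩ := FLTA.EllReducible.exists_stableLine _ hE P.pp hred
  rcases FLTA.EllReducible.subTrivial_or_quotTrivial _ hΔ
      (FLTA.Wiring.freyCurveInt_isSemistableModel P) P.pp (by have := P.hp5; omega) hN with h | h
  · obtain ⟨v, hv, hv0⟩ := Submodule.exists_mem_ne_zero_of_ne_bot hN.ne_bot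
    exact (FLTA.EllReducible.frey_not_fixed P hv0 fun σ => h σ v hv).elim
  · exact hN.hasGaloisStableCofixedLine h

end Fermat.Agent.S13
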