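import Fermat.Statements.S35
import Fermat.Agent.BadRed.Endgame.Plane

set_option autoImplicit false
set_option autoImplicit false
open Polynomial
open CuspForm CuspForm.IsNewform

namespace Fermat.Agent.S35

theorem result
    {M : ℕ} [NeZero M] {g : CuspForm (CongruenceSubgroup.Gamma0 M) 2} (hg : g.IsNewform)
    (lam : ℕ) [Fact lam.Prime]
    (S : Finset ℕ)
    (O' : Type) [CommRing O'] [IsDomain O'] [IsDiscreteValuationRing O']
    [IsAdicComplete (IsLocalRing.maximalIdeal O') O'] [Finite (IsLocalRing.ResidueField O')]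
    [CharZero O'] (hlamO' : (lam : O') ∈ IsLocalRing.maximalIdeal O')
    (chig : CuspForm.heckeAlgebra M 2 (↑S : Set ℕ) →+* ℂ)
    (hchig : ∀ (ℓ : ℕ) (hℓ : ℓ.Prime) (hℓM : ¬ ℓ ∣ M) (hℓS : ℓ ∉ (↑S : Set ℕ)),
      chig (CuspForm.heckeAlgebra.T hℓ hℓM hℓS) = ModularFormClass.qCoeff g ℓ)
    (iota : chig.range →+* O')
    (hlamS : lam ∈ S) (hMS : ∀ q : ℕ, q.Prime → q ∣ M → q ∈ S)
    :
    ∃ (O'' : Type) (_ : CommRing O'') (_ : IsDomain O'') (_ : IsDiscreteValuationRing O'')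
      (_ : IsAdicComplete (IsLocalRing.maximalIdeal O'') O'') (_ : Finite (IsLocalRing.ResidueField O''))
      (_ : CharZero O'') (_ : Algebra O' O'') (_ : Module.Finite O' O'') (_ : IsLocalHom (algebraMap O' O'')),
      Function.Injective (algebraMap O' O'') ∧
      ∃ ρ : GaloisRepAdic O'',
        (∀ (ℓ : ℕ) (hℓ : ℓ.Prime) (hℓM : ¬ ℓ ∣ M) (hℓS : ℓ ∉ (↑S : Set ℕ)),
          ∀ A : ValuationSubring (AlgebraicClosure ℚ), A.LiesOverPrime ℓ →
            ∀ σ : AlgebraicClosure ℚ ≃ₐ[ℚ] AlgebraicClosure ℚ, A.IsFrobeniusAt σ ℓ →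
              LinearMap.charpoly (ρ.ρ σ) =
                X ^ 2 - C (algebraMap O' O'' ((iota.comp chig.rangeRestrict) (CuspForm.heckeAlgebra.T hℓ hℓM hℓS))) * X
                  + C ((ℓ : O''))) ∧
        (∀ q : ℕ, q.Prime → q ≠ lam → q ∣ M → ¬ q ^ 2 ∣ M →
          ∀ A : ValuationSubring (AlgebraicClosure ℚ), A.LiesOverPrime q →
            ∀ σ : AlgebraicClosure ℚ ≃ₐ[ℚ] AlgebraicClosure ℚ, A.IsFrobeniusAt σ q →
              LinearMap.charpoly (ρ.ρ σ) = X ^ 2 - C ((q : O'') + 1) * X + C ((q : O'')) ∨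
              LinearMap.charpoly (ρ.ρ σ) = X ^ 2 + C ((q : O'') + 1) * X + C ((q : O''))) := by
  have := FLTA.GaloisReps.module_finite_fullHecke M
  have hle := CuspForm.heckeAlgebra_mono (N := M) (k := 2) (Set.empty_subset (↑S : Set ℕ))
  have : Module.Finite ℤ (CuspForm.heckeAlgebra M 2 (↑S : Set ℕ)) :=
    Module.Finite.of_injective (Subalgebra.inclusion hle).toLinearMap
      (Subalgebra.inclusion_injective hle)
  obtain ⟨E, ψ, hψ⟩ := FLTA.RepTheory.exists_ext_character O'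
    (Subalgebra.inclusion hle).toRingHom (Subalgebra.inclusion_injective hle)
    (iota.comp chig.rangeRestrict)
  have hiota : Function.Injective iota := by
    have : Algebra.IsIntegral ℤ chig.range := ⟨fun x => by
      obtain ⟨_, t, rfl⟩ := x
      exact map_isIntegral_int chig.rangeRestrict (Algebra.IsIntegral.isIntegral t)⟩
    rw [RingHom.injective_iff_ker_eq_bot]
    refine Ideal.eq_bot_of_comap_eq_bot (R := ℤ) ?_
    rw [eq_bot_iff]
    intro m hm
    rw [Ideal.mem_comap, RingHom.mem_ker, eq_intCast, map_intCast] at hm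
    exact Int.cast_eq_zero.mp hm
  have hchar : ∀ t : CuspForm.heckeAlgebra M 2 (↑S : Set ℕ),
      chig t = FLTA.GaloisReps.eigenCharC (S := (∅ : Set ℕ)) hg.1 (Subalgebra.inclusion hle t) := by
    rintro ⟨t, ht⟩
    induction ht using Algebra.adjoin_induction with
    | mem x hx =>
      rcases hx with ⟨ℓ, hℓ, hℓM, hℓS, rfl⟩ | ⟨q, hqM, hq, hqS, rfl⟩
      · exact (hchig ℓ hℓ hℓM hℓS).trans
          (FLTA.GaloisReps.eigenCharC_T hg.1 hℓ hℓM (Set.notMem_empty ℓ)).symm
      · exact absurd (hMS q hq hqM) hqS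
    | algebraMap r =>
      exact RingHom.congr_fun (RingHom.ext_int (chig.comp (algebraMap ℤ _))
        ((FLTA.GaloisReps.eigenCharC hg.1).comp
          ((Subalgebra.inclusion hle).toRingHom.comp (algebraMap ℤ _)))) r
    | add x y hx hy h1 h2 =>
      let a : CuspForm.heckeAlgebra M 2 (↑S : Set ℕ) := ⟨x, hx⟩
      let b : CuspForm.heckeAlgebra M 2 (↑S : Set ℕ) := ⟨y, hy⟩
      change chig (a + b) = FLTA.GaloisReps.eigenCharC (S := (∅ : Set ℕ)) hg.1
        (Subalgebra.inclusion hle (a + b))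
      rw [map_add, map_add, map_add, h1, h2]
    | mul x y hx hy h1 h2 =>
      let a : CuspForm.heckeAlgebra M 2 (↑S : Set ℕ) := ⟨x, hx⟩
      let b : CuspForm.heckeAlgebra M 2 (↑S : Set ℕ) := ⟨y, hy⟩
      change chig (a * b) = FLTA.GaloisReps.eigenCharC (S := (∅ : Set ℕ)) hg.1
        (Subalgebra.inclusion hle (a * b))
      rw [map_mul, map_mul, map_mul, h1, h2]
  have hlam : (lam : E.R) ∈ IsLocalRing.maximalIdeal E.R := by
    rw [← map_natCast (algebraMap O' E.R)]
    exact map_nonunit _ _ hlamO'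
  obtain ⟨ρ, hgood, hdet, hrel⟩ := FLTA.BadRed.exists_plane hlam ψ
  refine ⟨E.R, inferInstance, inferInstance, inferInstance, inferInstance, inferInstance,
    inferInstance, inferInstance, inferInstance, inferInstance, E.injective, ρ, ?_, ?_⟩
  · intro ℓ hℓ hℓM hℓS A hA σ hσ
    rw [hgood ℓ hℓ hℓM (fun h => hℓS (h ▸ hlamS)) A hA σ hσ]
    have h := RingHom.congr_fun hψ (CuspForm.heckeAlgebra.T hℓ hℓM hℓS)
    exact congrArg (fun a => X ^ 2 - C a * X + C (ℓ : E.R)) h
  · intro q hq hqlam hqM hq2 A hA σ hσ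
    refine FLTA.BadRed.frobenius_at_new hg hq hqM hq2 hqlam hlamS hlam ψ ?_ ρ hdet hrel hA hσ
    intro t ht hne h0
    have h := RingHom.congr_fun hψ ⟨t, ht⟩
    apply hne
    have h1 : algebraMap O' E.R (iota (chig.rangeRestrict ⟨t, ht⟩)) = 0 := h.symm.trans h0
    have h2 := congrArg Subtype.val
      ((map_eq_zero_iff iota hiota).mp ((map_eq_zero_iff _ E.injective).mp h1))
    exact ((hchar ⟨t, ht⟩).symm.trans h2)

end Fermat.Agent.S35
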