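import Fermat.Statements.S19
import Fermat.Agent.Grass.ModularCtx
import Fermat.Agent.Grass.TorsionModel
import Fermat.Agent.HeckeDatum.FlatModel
import Fermat.Agent.HeckeDatum.FlatModelApply

set_option autoImplicit false
open ModularCurve
open ModularCurve

namespace Fermat.Agent.S19

set_option synthInstance.maxHeartbeats 400000
set_option maxHeartbeats 1000000

theorem result
    (p : ℕ) [NeZero p] (ℓ : ℕ) [Fact ℓ.Prime] (hℓp : ¬ ℓ ∣ p) (k : ℕ) :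
    ∃ (H : Type) (_ : CommRing H) (_ : HopfAlgebra (GaloisRep.ratLocalizedAt ℓ) H),
      Module.Finite (GaloisRep.ratLocalizedAt ℓ) H ∧ Module.Flat (GaloisRep.ratLocalizedAt ℓ) H ∧
      Coalgebra.IsCocomm (GaloisRep.ratLocalizedAt ℓ) H ∧
      ∃ e : WithConv (H →ₐ[GaloisRep.ratLocalizedAt ℓ] AlgebraicClosure ℚ) ≃
          ↥(Submodule.torsionBy ℤ (JZero p) ((ℓ : ℤ) ^ k)),
        (∀ f g, e (f * g) = e f + e g) ∧
        ∀ (σ : AlgebraicClosure ℚ ≃ₐ[ℚ] AlgebraicClosure ℚ)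
          (f g : WithConv (H →ₐ[GaloisRep.ratLocalizedAt ℓ] AlgebraicClosure ℚ)),
          (∀ h : H, g h = σ (f h)) → ((e g : JZero p)) = σ • (e f : JZero p) := by
  have hℓ : ℓ.Prime := Fact.out
  obtain ⟨A, hA, h⟩ := FLTA.Grass.exists_reductionInputsModL p hℓp
  obtain ⟨g, C, -, hinf, hbas⟩ := FLTA.Grass.exists_modularCtx p hℓp A hA h
  haveI : Finite ↥(Submodule.torsionBy ℤ (JZero p) ((ℓ : ℤ) ^ k)) := by
    have h1 := FLTA.Grass.finite_torsionBy_jZero p (n := ℓ ^ k) (pow_pos hℓ.pos k)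
    rwa [Nat.cast_pow] at h1
  have hmodel : FLTA.HeckeDatum.HasFlatModel ℓ ↥(Submodule.torsionBy ℤ (JZero p) ((ℓ : ℤ) ^ k))
      (FLTA.HeckeDatum.torsionAct p ((ℓ : ℤ) ^ k)) :=
    C.hasFlatModel_torsion hA (arithmeticGalois (modularFunctionFieldFull p))
      (fun σ a => rfl) hinf hbas (fun D => FLTA.Grass.exists_fixer_divisor p D)
      (FLTA.HeckeDatum.torsionAct p ((ℓ : ℤ) ^ k))
      (Submodule.torsionBy ℤ (JZero p) ((ℓ : ℤ) ^ k)).subtype.toAddMonoidHom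
      Subtype.val_injective (fun σ x => rfl)
  obtain ⟨H, i₁, i₂, h1, h2, h3, e, he, hσ⟩ := hmodel.isHopfFlat hℓ
  exact ⟨H, i₁, i₂, h1, h2, h3, e, he, fun σ f g hfg => congrArg Subtype.val (hσ σ f g hfg)⟩

end Fermat.Agent.S19
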