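import Fermat.Statements.S33
import Fermat.Agent.BadRed.Ordinary.Endgame
import Fermat.Agent.BadRed.Ordinary.Instance

set_option autoImplicit false
variable {p : ℕ} {N : ℕ} [NeZero N] {S : Finset ℕ}
  {𝒪 : Type} [CommRing 𝒪] [IsDomain 𝒪] [IsDiscreteValuationRing 𝒪]
  [IsAdicComplete (IsLocalRing.maximalIdeal 𝒪) 𝒪]
  {θ : CuspForm.heckeAlgebra N 2 (↑S : Set ℕ) →+* IsLocalRing.ResidueField 𝒪}
  {T : Type} [CommRing T] [IsLocalRing T] [IsNoetherianRing T]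
  [IsAdicComplete (IsLocalRing.maximalIdeal T) T] [Algebra 𝒪 T] [IsLocalHom (algebraMap 𝒪 T)]
  [Module.Finite 𝒪 T] [Module.Free 𝒪 T]
open CuspForm CuspForm.HeckeGaloisRepDatum

namespace Fermat.Agent.S33

theorem result
    [Finite (IsLocalRing.ResidueField 𝒪)] [CharZero 𝒪]
    (hp : p.Prime) (hp2 : p ≠ 2) (hp𝒪 : (p : 𝒪) ∈ IsLocalRing.maximalIdeal 𝒪) (hN : p ∣ N ∧ ¬ p ^ 2 ∣ N)
    (hNS : ∀ q : ℕ, q.Prime → q ∣ N → q ∈ S)
    (H : CuspForm.HeckeGaloisRepDatum N (↑S : Set ℕ) 𝒪 θ T)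
    (hres : (GaloisRepAdic.ofResidualGaloisRep H.ρ.residual).IsOrdinaryAt p) :
    H.ρ.IsOrdinaryAt p := by
  have : Fact p.Prime := ⟨hp⟩
  have : NeZero p := ⟨hp.ne_zero⟩
  obtain ⟨N', rfl⟩ := hN.1
  have hN' : ¬ p ∣ N' := fun h => hN.2 (by rw [sq]; exact mul_dvd_mul_left p h)
  revert H hNS
  generalize hM : p * N' = M at *
  obtain rfl : M = N' * p := by rw [← hM, mul_comm]
  intro hNS H hres
  have : NeZero N' := ⟨fun h => NeZero.ne (N' * p) (by rw [h, zero_mul])⟩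
  exact FLTA.BadRed.Ordinary.isOrdinaryAt_of_tateData (FLTA.GaloisReps.tateData (N' * p) p) hp2
    hp𝒪 (hNS p hp (dvd_mul_left p N')) hNS H hres
    fun P hP => FLTA.BadRed.Ordinary.exists_inertiaTorsion N' p hN' hP hp2

end Fermat.Agent.S33
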