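import Fermat.Statements.S15
import Fermat.Agent.Mazur.StepThree

set_option autoImplicit false
open WeierstrassCurve WeierstrassCurve.Affine
open WeierstrassCurve

namespace Fermat.Agent.S15

theorem result
    {p : ℕ} (hp : p.Prime) (hp' : p ∉ ({2, 3, 5, 7, 13} : Finset ℕ))
    (W : WeierstrassCurve ℤ) (hΔ : W.Δ ≠ 0)
    (Q : ((W.map (Int.castRingHom ℚ))⁄(AlgebraicClosure ℚ)).Point)
    (hQfix : ∀ σ : AlgebraicClosure ℚ ≃ₐ[ℚ] AlgebraicClosure ℚ, σ • Q = Q)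
    (hQord : addOrderOf Q = p)
    (h2Δ : (2 : ℤ) ∣ W.Δ) (h2c₄ : ¬ (2 : ℤ) ∣ W.c₄)
    (h2 : ∀ A : ValuationSubring (AlgebraicClosure ℚ), A.LiesOverPrime 2 → ¬ W.InZeroComponentAt A Q)
    (h3Δ : (3 : ℤ) ∣ W.Δ) (h3c₄ : ¬ (3 : ℤ) ∣ W.c₄)
    (h3 : ∀ A : ValuationSubring (AlgebraicClosure ℚ), A.LiesOverPrime 3 → ¬ W.InZeroComponentAt A Q)
    {ℓ : ℕ} (hℓ : ℓ.Prime) (hℓp : ℓ ≠ p) (hℓΔ : (ℓ : ℤ) ∣ W.Δ) (hℓc₄ : ¬ (ℓ : ℤ) ∣ W.c₄)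
    (A : ValuationSubring (AlgebraicClosure ℚ)) (hA : A.LiesOverPrime ℓ) :
    ¬ W.InZeroComponentAt A Q := by
  have : NeZero p := ⟨hp.ne_zero⟩
  obtain ⟨A₂, hA₂⟩ := FLTA.Galois.exists_liesOverPrime Nat.prime_two
  obtain ⟨A₃, hA₃⟩ := FLTA.Galois.exists_liesOverPrime Nat.prime_three
  exact FLTA.Mazur.not_mem_E0Z_of_two_three hΔ ⟨hp, hp'⟩ hQord
    (fun σ => AddSubgroup.mem_zmultiples_iff.2 ⟨1, (one_zsmul Q).trans (hQfix σ).symm⟩)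
    h2Δ h2c₄ hA₂ (h2 A₂ hA₂) h3Δ h3c₄ hA₃ (h3 A₃ hA₃) hℓ hℓp hℓΔ hℓc₄ hA

end Fermat.Agent.S15
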