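import Fermat.Statements.S17
import Fermat.Agent.MordellWeil.Modular

set_option autoImplicit false
open ModularCurve AlgebraicCurve
open ModularCurve ModularCurve.JZero

namespace Fermat.Agent.S17

theorem result (N : ℕ) [NeZero N] (hN : N.Prime) (hN5 : 5 ≤ N) :
    AddGroup.FG ↥(FixedPoints.addSubgroup ((AlgebraicClosure ℚ) ≃ₐ[ℚ] (AlgebraicClosure ℚ)) (JZero N)) := by
  refine (congrArg (fun H : AddSubgroup (JZero N) => AddGroup.FG H) ?_).mp
    (FLTA.MordellWeil.jZero_fixed_fg N ⊥)
  ext x
  constructor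
  · intro h σ
    exact h ⟨σ, by rw [IntermediateField.fixingSubgroup_bot]; exact Subgroup.mem_top σ⟩
  · intro h σ
    exact h σ.1

end Fermat.Agent.S17
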