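import Fermat.Statements.S25
import Fermat.Agent.Jacobian.CurveCover
import Fermat.Agent.Jacobian.EndAssemble
import Fermat.Agent.Jacobian.EndSeparated

set_option autoImplicit false
universe u
open CategoryTheory CategoryTheory.Limits AlgebraicGeometry AlgebraicGeometry.RelPicard NeronModelInfra
  GoodReductionJacobian
open AlgebraicGeometry AlgebraicGeometry.RelPicard

namespace Fermat.Agent.S25

open FLTA.Jacobian in
theorem result
    (k : Type u) [Field k] [IsAlgClosed k] {C : Scheme.{u}} (c : C ⟶ Spec (CommRingCat.of k))
    [IsProper c] [SmoothOfRelativeDimension 1 c] [IsIntegral C]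
    (ε : SchemeHomOver (𝟙 (Spec (CommRingCat.of k))) c) :
    ∃ D : RelativePic0Designation k c,
      Nonempty (RepresentsRelSubPic c ε (algEquivZeroCut c ε) D) ∧
        Smooth D.toBase ∧ IsProper D.toBase ∧ GeometricallyConnected D.toBase := by
  obtain ⟨cc⟩ := nonempty_curveCover (c := c) (ε := ε)
  have := isSeparated_jacHom cc
  have := universallyClosed_jacHom cc
  have := locallyOfFiniteType_jacHom cc
  have hp : IsProper (jacHom cc) := {}
  exact ⟨jacDesignation cc, nonempty_represents cc, smooth_jacHom cc, hp,
    geometricallyConnected_jacHom cc⟩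

end Fermat.Agent.S25
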