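import Fermat.Statements.S28
import Fermat.Agent.Igusa.SchemeGlue
import Fermat.Agent.Igusa.Chart
-- import your own Fermat.Agent.* helpers here

set_option autoImplicit false
open AlgebraicGeometry CategoryTheory CategoryTheory.Limits ModularCurve ModularCurve.IgusaScheme
noncomputable section
set_option autoImplicit false
open ModularCurve ModularCurve.IgusaScheme

namespace Fermat.Agent.S28

set_option maxHeartbeats 4000000 in
set_option synthInstance.maxHeartbeats 400000 in
theorem result
    (N : ℕ) [NeZero N] (ℓ : ℕ) [Fact ℓ.Prime] (hℓN : ¬ ℓ ∣ N)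
    (K : Type) [Field K] [CharP K ℓ] [Algebra ↥(GaloisRep.ratLocalizedAt ℓ) K] :
    IsIntegral ↑(pullback (igusaTo N ℓ)
      (Spec.map (CommRingCat.ofHom (algebraMap ↥(GaloisRep.ratLocalizedAt ℓ) K)))) := by
  have dom : ∀ (S : Set ↥(modularFunctionFieldFull N)), FLTA.Igusa.IsChartSet N S →
      IsDomain (TensorProduct ↥(GaloisRep.ratLocalizedAt ℓ) ↥(chartAlg N ℓ S) K) := by
    intro S hS
    let e := Algebra.TensorProduct.comm ↥(GaloisRep.ratLocalizedAt ℓ) ↥(chartAlg N ℓ S) K
    let f := (FLTA.Igusa.chartTensorRed ℓ hS K).comp e.toAlgHom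
    exact Function.Injective.isDomain f.toRingHom
      ((FLTA.Igusa.chartTensorRed_injective ℓ hS K hℓN).comp e.injective)
  have hFin := dom _ (FLTA.Igusa.isChartSet_fin N)
  have hInf := dom _ (FLTA.Igusa.isChartSet_inf N)
  have hMid := dom _ (FLTA.Igusa.isChartSet_mid N)
  exact FLTA.Igusa.isIntegral_pullback_igusaTo N ℓ K hFin hInf hMid.toNontrivial

end Fermat.Agent.S28
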