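import Fermat.Statements.S30
import Fermat.Agent.GaloisReps.Attach
import Fermat.Agent.RepTheory.DVRExtension

set_option autoImplicit false
open Polynomial
open CuspForm

namespace Fermat.Agent.S30

theorem result :
    ∀ (p : ℕ) [Fact p.Prime] (N : ℕ) [NeZero N] (S : Finset ℕ)
      (_hpS : p ∈ S) (_hNS : ∀ q : ℕ, q.Prime → q ∣ N → q ∈ S)
      (𝒪' : Type) [CommRing 𝒪'] [IsDomain 𝒪'] [IsDiscreteValuationRing 𝒪']
      [IsAdicComplete (IsLocalRing.maximalIdeal 𝒪') 𝒪'] [Finite (IsLocalRing.ResidueField 𝒪')]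
      [CharZero 𝒪'] (_hp𝒪' : (p : 𝒪') ∈ IsLocalRing.maximalIdeal 𝒪')
      (χ : CuspForm.heckeAlgebra N 2 (↑S : Set ℕ) →+* 𝒪'),
      ∃ (𝒪'' : Type) (_ : CommRing 𝒪'') (_ : IsDomain 𝒪'') (_ : IsDiscreteValuationRing 𝒪'')
        (_ : IsAdicComplete (IsLocalRing.maximalIdeal 𝒪'') 𝒪'')
        (_ : Finite (IsLocalRing.ResidueField 𝒪'')) (_ : CharZero 𝒪'')
        (_ : Algebra 𝒪' 𝒪'') (_ : Module.Finite 𝒪' 𝒪'') (_ : IsLocalHom (algebraMap 𝒪' 𝒪'')),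
      Function.Injective (algebraMap 𝒪' 𝒪'') ∧
      ∃ ρ : GaloisRepAdic 𝒪'',
        (∀ (ℓ : ℕ) (hℓ : ℓ.Prime) (hℓN : ¬ ℓ ∣ N) (hℓS : ℓ ∉ (↑S : Set ℕ)),
          ∀ A : ValuationSubring (AlgebraicClosure ℚ), A.LiesOverPrime ℓ →
            ∀ σ : AlgebraicClosure ℚ ≃ₐ[ℚ] AlgebraicClosure ℚ, A.IsFrobeniusAt σ ℓ →
              LinearMap.charpoly (ρ.ρ σ) =
                X ^ 2 - C (algebraMap 𝒪' 𝒪'' (χ (CuspForm.heckeAlgebra.T hℓ hℓN hℓS))) * X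
                  + C ((ℓ : 𝒪''))) ∧
        (∀ q : ℕ, q.Prime → ¬ q ∣ N → q ≠ p → ρ.IsUnramifiedAt q) := by
  intro p _ N _ S hpS hNS 𝒪' _ _ _ _ _ _ hp𝒪' χ
  haveI := FLTA.GaloisReps.module_finite_fullHecke N
  have hle := CuspForm.heckeAlgebra_mono (N := N) (k := 2) (Set.empty_subset (↑S : Set ℕ))
  obtain ⟨E, ψ, hψ⟩ := FLTA.RepTheory.exists_ext_character 𝒪'
    (Subalgebra.inclusion hle).toRingHom (Subalgebra.inclusion_injective hle) χ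
  have hp : (p : E.R) ∈ IsLocalRing.maximalIdeal E.R := by
    rw [← map_natCast (algebraMap 𝒪' E.R)]
    exact map_nonunit _ _ hp𝒪'
  obtain ⟨ρ, hcp, hunr, -⟩ := FLTA.GaloisReps.exists_galoisRepAdic_attached hp ψ
  refine ⟨E.R, inferInstance, inferInstance, inferInstance, inferInstance, inferInstance,
    inferInstance, inferInstance, inferInstance, inferInstance, E.injective, ρ, ?_, hunr⟩
  intro ℓ hℓ hℓN hℓS A hA σ hσ
  have hℓp : ℓ ≠ p := fun h => hℓS (h ▸ hpS)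
  rw [hcp ℓ hℓ hℓN hℓp A hA σ hσ]
  have h := RingHom.congr_fun hψ (CuspForm.heckeAlgebra.T hℓ hℓN hℓS)
  exact congrArg (fun a => X ^ 2 - C a * X + C (ℓ : E.R)) h

end Fermat.Agent.S30
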