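import Fermat.Statements.S37
import Fermat.Agent.Congruence.Torsion
import Fermat.Agent.Congruence.Specialization

set_option autoImplicit false
open ModularCurve

namespace Fermat.Agent.S37

set_option synthInstance.maxHeartbeats 400000 in
set_option maxHeartbeats 2000000 in
theorem result (N p : ℕ) [NeZero N] (hcomm : ModularCurve.HeckeOperatorsCommuteBar N) : letI := ModularCurve.heckeModuleBar N; ∀ (_ : SMulCommClass (AlgebraicClosure ℚ ≃ₐ[ℚ] AlgebraicClosure ℚ) ModularCurve.HeckeAlg (ModularCurve.JZero N)), ModularCurve.SpecializationExists (K := ℚ) (L := AlgebraicClosure ℚ) N p (ModularCurve.JZero N) := by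
  letI := ModularCurve.heckeModuleBar N
  intro _ ℓ hℓ hℓNp A hA
  have hℓN : ¬ ℓ ∣ N := fun h => hℓNp (h.mul_right p)
  have hℓp : ¬ ℓ ∣ p := fun h => hℓNp (h.mul_left N)
  haveI : Fact ℓ.Prime := ⟨hℓ⟩
  haveI := FLTA.Galois.charP_residueField hℓ hA
  haveI := FLTA.Congruence.perfectRing_residueField hℓ hA
  have hin := FLTA.Congruence.reductionInputs N hℓ hℓN A hA
  let g := FLTA.Congruence.frobSemilinear (IsLocalRing.ResidueField A) ℓ N
  refine FLTA.Congruence.exists_specialization (M := JZeroC (IsLocalRing.ResidueField A) N)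
    A ℓ hℓ (reductionModL A N)
    (DistribSMul.toAddMonoidHom _ g) (ℓ • DistribSMul.toAddMonoidHom _ g⁻¹)
    (fun m => ?_) (fun m => ?_) (fun x => ?_)
    (fun σ hσ x => FLTA.Congruence.reductionModL_inertia hin hσ x)
    (fun σ hσ x => FLTA.Congruence.reductionModL_frobenius hin hσ x) ?_
  · show ℓ • (g⁻¹ • g • m) = ℓ • m
    rw [inv_smul_smul]
  · show g • ℓ • (g⁻¹ • m) = ℓ • m
    exact (map_nsmul (DistribSMul.toAddMonoidHom (JZeroC (IsLocalRing.ResidueField A) N) g) ℓ
      (g⁻¹ • m)).trans (congrArg (ℓ • ·) (smul_inv_smul g m))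
  · rw [heckeModuleBar_heckeGen_smul hcomm]
    exact FLTA.Congruence.reductionModL_heckeOperatorBar hℓN hin x
  · rintro x ⟨n, hn⟩ h0
    exact FLTA.Congruence.eq_zero_of_reductionModL_eq_zero N hℓ hℓN A hA (p ^ n)
      (fun h => hℓp (hℓ.dvd_of_dvd_pow h)) x hn h0

end Fermat.Agent.S37
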