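import Fermat.Statements.S52
import Fermat.Agent.Elliptic.Switch.Members
import Fermat.Agent.Elliptic.Switch.Congr

set_option autoImplicit false
open WeierstrassCurve WeierstrassCurve.Affine WeierstrassCurve.Affine.Point
open CuspForm ModularFormClass UpperHalfPlane
open WeierstrassCurve

namespace Fermat.Agent.S52

theorem result (W : WeierstrassCurve ℤ) (hΔ : W.Δ ≠ 0) (hW : W.IsSemistableModel) (h5 : W.ModRepIsIrreducible 5) : ∃ W' : WeierstrassCurve ℤ, W'.Δ ≠ 0 ∧ W'.IsSemistableModel ∧ W'.ModRepIsIrreducible 3 ∧ ∀ ℓ : ℕ, ℓ.Prime → W.IsGoodPrimeFor ℓ → W'.IsGoodPrimeFor ℓ → ℓ ≠ 5 → (5 : ℤ) ∣ (W'.apOfModel ℓ - W.apOfModel ℓ) := by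
  obtain ⟨W', hΔ', hss, h3, hmod, φ, hφ⟩ :=
    FLTA.Elliptic.Switch.exists_member W hΔ hW 2 (by norm_num)
  exact ⟨W', hΔ', hss, h3, fun ℓ hℓ hg hg' hℓ5 =>
    FLTA.Elliptic.Switch.five_dvd_apOfModel_sub W W' hΔ hΔ' φ hφ hmod ℓ hℓ hg hg' hℓ5⟩

end Fermat.Agent.S52
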