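import Fermat.Statements.S56
import Fermat.Agent.TaylorWiles.Main

set_option autoImplicit false
open Polynomial IsLocalRing
open ResidualGaloisRep

namespace Fermat.Agent.S56

theorem result
    {𝒪 : Type} [CommRing 𝒪] [IsDomain 𝒪] [IsDiscreteValuationRing 𝒪]
    [IsAdicComplete (maximalIdeal 𝒪) 𝒪] [Finite (ResidueField 𝒪)]
    (p : ℕ) [Fact p.Prime] (hp2 : p ≠ 2) (hp𝒪 : (p : 𝒪) ∈ maximalIdeal 𝒪)
    (ρbar : ResidualGaloisRep (ResidueField 𝒪))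
    (habs : ρbar.IsAbsolutelyIrreducible)
    (hdet : (GaloisRepAdic.ofResidualGaloisRep ρbar).DetIsCyclotomic p)
    (hsplit : ∀ σ : AlgebraicClosure ℚ ≃ₐ[ℚ] AlgebraicClosure ℚ,
      ∃ α β : ResidueField 𝒪, LinearMap.charpoly (ρbar.ρ σ) = (X - C α) * (X - C β))
    (hTW : ∀ (K : Type) [Field K] [Algebra (ResidueField 𝒪) K]
      (G : Subgroup (AlgebraicClosure ℚ ≃ₐ[ℚ] AlgebraicClosure ℚ)), G.index = 2 →
      ∀ V : Submodule K (ρbar.baseChange K).V,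
        (∀ σ ∈ G, ∀ x ∈ V, (ρbar.baseChange K).ρ σ x ∈ V) → V = ⊥ ∨ V = ⊤)
    (S Smin : Finset ℕ) (hpSmin : p ∈ Smin) (hSmin : Smin ⊆ S) (hS : ∀ q ∈ S, q.Prime)
    (hmin : ∀ q : ℕ, q.Prime → q ≠ p → (q ∈ Smin ↔ ¬ ρbar.IsUnramifiedAt q)) :
    (∃ r : ℕ, ∀ n : ℕ, ∃ qv : Fin r → ℕ, Function.Injective qv ∧
      (∀ i, (qv i).Prime ∧ qv i ∉ S ∧ p ^ (n + 1) ∣ qv i - 1) ∧
      (∀ i, ∀ P : ValuationSubring (AlgebraicClosure ℚ), P.LiesOverPrime (qv i) →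
        ∀ φ : AlgebraicClosure ℚ ≃ₐ[ℚ] AlgebraicClosure ℚ, P.IsFrobeniusAt φ (qv i) →
          ∃ α β : ResidueField 𝒪, α ≠ β ∧ LinearMap.charpoly (ρbar.ρ φ) = (X - C α) * (X - C β)) ∧
      ∀ DQ : GaloisRep.DeformationRingData 𝒪 ρbar (fun _A _ _ _ ρ =>
          GaloisRep.strictOrdinaryCondition 𝒪 p (Smin ∪ Finset.univ.image qv) ρ ∧
            ∀ q ∈ Smin, q.Prime → q ≠ p → ρ.IsUnipotentOnInertiaAt q),
        ∃ γ : MvPowerSeries (Fin r) 𝒪 →ₐ[𝒪] DQ.R, Function.Surjective γ) ∧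
    (∃ r : ℕ, ∀ n : ℕ, ∃ qv : Fin r → ℕ, Function.Injective qv ∧
      (∀ i, (qv i).Prime ∧ qv i ∉ S ∧ p ^ (n + 1) ∣ qv i - 1) ∧
      (∀ i, ∀ P : ValuationSubring (AlgebraicClosure ℚ), P.LiesOverPrime (qv i) →
        ∀ φ : AlgebraicClosure ℚ ≃ₐ[ℚ] AlgebraicClosure ℚ, P.IsFrobeniusAt φ (qv i) →
          ∃ α β : ResidueField 𝒪, α ≠ β ∧ LinearMap.charpoly (ρbar.ρ φ) = (X - C α) * (X - C β)) ∧
      ∀ DQ : GaloisRep.DeformationRingData 𝒪 ρbar (fun _A _ _ _ ρ =>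
          GaloisRep.flatCondition 𝒪 p (Smin ∪ Finset.univ.image qv) ρ ∧
            ∀ q ∈ Smin, q.Prime → q ≠ p → ρ.IsUnipotentOnInertiaAt q),
        ∃ γ : MvPowerSeries (Fin r) 𝒪 →ₐ[𝒪] DQ.R, Function.Surjective γ) := by
  haveI : CharP (ResidueField 𝒪) p := by
    refine (CharP.charP_iff_prime_eq_zero Fact.out).mpr ?_
    rw [← map_natCast (IsLocalRing.residue 𝒪), IsLocalRing.residue_eq_zero_iff]
    exact hp𝒪
  letI := ZMod.algebra (ResidueField 𝒪) p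
  have hdetM := FLTA.TW.det_eq_cycloChar p ρbar hdet
  have hsplitM : ∀ g, ∃ a b : ResidueField 𝒪, (FLTA.Deformation.barMat ρbar g).charpoly =
      (X - C a) * (X - C b) := fun g => by
    obtain ⟨a, b, h⟩ := hsplit g
    exact ⟨a, b, (LinearMap.charpoly_toMatrix (ρbar.ρ g) (FLTA.Deformation.barBasis ρbar)).trans h⟩
  have hM : FLTA.PT.Smooth FLTA.PT.lvlQ (FLTA.TW.ad0Rep p (FLTA.Deformation.barMat ρbar)) := by
    obtain ⟨F, hF, h1⟩ := ρbar.factorsThroughFiniteLevel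
    have hM1 : ∀ g, ρbar.ρ g = 1 → FLTA.Deformation.barMat ρbar g = 1 := fun g h => by
      show LinearMap.toMatrix (FLTA.Deformation.barBasis ρbar) (FLTA.Deformation.barBasis ρbar)
        (ρbar.ρ g) = 1
      rw [h, LinearMap.toMatrix_one]
    refine FLTA.TW.smooth_lvlQ_of_lvlS p (FLTA.TW.smooth_ad0Rep p _
      (FLTA.TW.exists_level_lvlS _ (Smin.subtype Nat.Prime) ⟨F, hF, fun s hs => hM1 s (h1 s hs)⟩
        fun q hq A hA s hs => hM1 s ?_))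
    have hqS : (q : ℕ) ∉ Smin := fun h => hq (Finset.mem_subtype.mpr h)
    exact (not_not.mp (mt (hmin q q.2 fun h => hqS (h ▸ hpSmin)).mpr hqS)) A hA s hs
  refine ⟨?_, ?_⟩
  · exact FLTA.TW.exists_taylorWiles_generators p hp2 ρbar habs hdet hsplit hTW S Smin hpSmin hSmin
      hmin (fun _A _ _ ρ => ρ.IsStrictOrdinaryAt p)
      (fun T => FLTA.RT.isClosed_strictCond 𝒪 p hp2 T Smin)
      (FLTA.TW.exists_strictOrdinaryCond p _ hp2 hM hdetM)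
  · exact FLTA.TW.exists_taylorWiles_generators p hp2 ρbar habs hdet hsplit hTW S Smin hpSmin hSmin
      hmin (fun _A _ _ ρ => ρ.IsFlatAt p)
      (fun T => FLTA.RT.isClosed_flatCond 𝒪 p T Smin)
      (FLTA.TW.exists_flatCond p _ hp2 hM hdetM hsplitM)

end Fermat.Agent.S56
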