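import Fermat.Statements.S59
import Fermat.Agent.Final.S59
import Fermat.Agent.Final.Chain
import Fermat.Agent.RT.Qsq.Main
import Fermat.Agent.RT.Qsq.TwoFive
import Fermat.Agent.RT.LowerP
import Fermat.Agent.RT.LowerQAvoid

set_option autoImplicit false
set_option autoImplicit false
open scoped WeierstrassCurve.Affine
open WeierstrassCurve

namespace Fermat.Agent.S59

theorem result (p : ℕ) (hp : p = 3 ∨ p = 5)
    (W : WeierstrassCurve ℤ) (hΔ : W.Δ ≠ 0) (hW : W.IsSemistableModel) (hirr : W.ModRepIsIrreducible p)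
    (M₀ : ℕ) [NeZero M₀] (hres₀ : W.IsResiduallyModularOfLevel p M₀)
    (hM₀ : ¬ p ^ 2 ∣ M₀)
    (hM₀3 : ∀ q : ℕ, q.Prime → q ≠ p → ¬ q ^ 3 ∣ M₀) :
    Mlc1IsModularModelOfExactConductorLevel W := by
  exact FLTA.Final.s59_of FLTA.RT.sqDescent FLTA.RT.sqDescentTwo FLTA.RT.lowerP FLTA.RT.lowerQ
    FLTA.RT.liftFromMinimal FLTA.Final.conductorMatching p hp W hΔ hW hirr M₀ hres₀ hM₀ hM₀3

end Fermat.Agent.S59
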